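import Fermat.Agent.LT.Whittaker.Expansion

/-!
# Bounds on the Fourier coefficients of a bounded cusp eigenfunction

The coefficients are bounded, and the expansion is bounded by `K · exp (-δ m)` when all heights
are at least `m`.
-/

set_option autoImplicit false

noncomputable section

open MeasureTheory Set
open NumberField (InfinitePlace)

namespace Fermat.Agent.LT.Decay

open Whittaker

variable {F : Type*} [Field F] [NumberField F] [NumberField.IsTotallyComplex F] {U : Level F}
  {φ : Y U → ℂ} {c : GLFin F ⧸ U.toSubgroup}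
  {b : Module.Basis (Fin (Module.finrank ℚ F)) ℚ F}

/-- The torus coefficients decay exponentially in the heights and the frequency. -/
theorem norm_torusCoeff_exp_le (hφ : IsCuspEigen φ) (hb : ∀ i, glIncl F (unip (b i)) • c = c)
    {C : ℝ} (hC : ∀ y, ‖φ y‖ ≤ C) (n : Fin (Module.finrank ℚ F) → ℤ)
    {t : InfinitePlace F → ℝ} (ht : ∀ w, 0 < t w) :
    ‖torusCoeff b φ c n t‖ ≤ 2 ^ Fintype.card (InfinitePlace F) *
      Real.exp (-(2 * Real.pi * ∑ w : InfinitePlace F, w (freq b n) * t w)) * C := by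
  obtain ⟨a, ha0, ha⟩ := exists_torusCoeff_eq hφ hb
  have ht2 : ∀ w, 0 < t w / 2 := fun w => half_pos (ht w)
  have hC0 : 0 ≤ C := (norm_nonneg _).trans (hC (ptAt 0 t, c))
  rcases eq_or_ne n 0 with rfl | hn
  · rw [ha 0 t ht, ha0, zero_mul, norm_zero]; positivity
  have hξ := freq_ne_zero (b := b) hn
  have h2 := norm_torusCoeff_le b hC n (fun w => t w / 2) (c := c)
  rw [ha n _ ht2, norm_mul, Complex.norm_real, Real.norm_of_nonneg (bessel_pos hξ ht2).le] at h2
  rw [ha n t ht, norm_mul, Complex.norm_real, Real.norm_of_nonneg (bessel_pos hξ ht).le]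
  refine (mul_le_mul_of_nonneg_left (bessel_le hξ ht) (norm_nonneg _)).trans ?_
  rw [mul_left_comm]
  exact mul_le_mul_of_nonneg_left h2 (by positivity)

omit [NumberField.IsTotallyComplex F] in
theorem sum_freq_mul_ge {m : ℝ} (n : Fin (Module.finrank ℚ F) → ℤ) {t : InfinitePlace F → ℝ}
    (hmt : ∀ w, m ≤ t w) :
    m * ∑ w : InfinitePlace F, w (freq b n) ≤ ∑ w : InfinitePlace F, w (freq b n) * t w := by
  rw [Finset.mul_sum]
  refine Finset.sum_le_sum fun w _ => ?_
  rw [mul_comm]
  exact mul_le_mul_of_nonneg_left (hmt w) (apply_nonneg w _)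

/-- The torus coefficients are absolutely summable. -/
theorem summable_torusCoeff (hφ : IsCuspEigen φ) (hb : ∀ i, glIncl F (unip (b i)) • c = c)
    {t : InfinitePlace F → ℝ} (ht : ∀ w, 0 < t w) :
    Summable fun n => ‖torusCoeff b φ c n t‖ := by
  obtain ⟨C, hC⟩ := hφ.bounded
  obtain ⟨w₀, -, hw₀⟩ := Finset.exists_min_image Finset.univ t Finset.univ_nonempty
  have hm : 0 < 2 * Real.pi * t w₀ := mul_pos (by positivity) (ht w₀)
  refine Summable.of_nonneg_of_le (fun n => norm_nonneg _) (fun n => ?_)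
    (((summable_exp_freq b hm).mul_left (2 ^ Fintype.card (InfinitePlace F))).mul_right C)
  refine (norm_torusCoeff_exp_le hφ hb hC n ht).trans
    (mul_le_mul_of_nonneg_right (mul_le_mul_of_nonneg_left (Real.exp_le_exp.mpr ?_) (by positivity))
      ((norm_nonneg _).trans (hC (ptAt 0 t, c))))
  rw [neg_le_neg_iff, mul_assoc (2 * Real.pi)]
  exact mul_le_mul_of_nonneg_left (sum_freq_mul_ge n fun w => hw₀ w (Finset.mem_univ w))
    (by positivity)

/-- The expansion along a stabilising torus. -/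
theorem hasSum_torusCoeff (hφ : IsCuspEigen φ) (hb : ∀ i, glIncl F (unip (b i)) • c = c)
    {t : InfinitePlace F → ℝ} (ht : ∀ w, 0 < t w) (z : InfinitePlace F → ℂ) :
    HasSum (fun n => torusCoeff b φ c n t * expChar (freq b n) z) (φ (ptAt z t, c)) := by
  have h := hasSum_boxCoeff (torusFn_periodic b hφ.automorphic hb ht)
    (continuous_torusFn b hφ ht) (summable_torusCoeff hφ hb ht).of_norm (boxInv b z)
  rw [torusFn, boxEmb_boxInv] at h
  refine h.congr_fun fun n => ?_
  rw [expChar_freq_eq]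
  rfl

/-- The torus coefficients are the Fourier coefficients times the Bessel product. -/
theorem torusCoeff_eq_coef (hφ : IsCuspEigen φ) (hb : ∀ i, glIncl F (unip (b i)) • c = c)
    (n : Fin (Module.finrank ℚ F) → ℤ) {t : InfinitePlace F → ℝ} (ht : ∀ w, 0 < t w) :
    torusCoeff b φ c n t = coef φ c (freq b n) * (bessel (freq b n) t : ℂ) := by
  obtain ⟨a, ha0, ha⟩ := exists_torusCoeff_eq hφ hb
  have hexp : IsExpansion φ c (Function.extend (freq b) a 0) := by
    refine ⟨?_, fun z s hs => ?_⟩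
    · rw [show (0 : F) = freq b 0 by simp [freq], (freq_injective b).extend_apply, ha0]
    · rw [← (freq_injective b).hasSum_iff (fun ξ hξ => by
        rw [Function.extend_apply' _ _ _ hξ]; simp)]
      refine (hasSum_torusCoeff hφ hb hs z).congr_fun fun k => ?_
      rw [Function.comp_apply, (freq_injective b).extend_apply, ha k s hs]
      ring
  rw [coef_eq_of_isExpansion hexp, (freq_injective b).extend_apply, ha n t ht]

/-- The nonzero frequencies are bounded away from zero. -/
theorem exists_freq_gap (b : Module.Basis (Fin (Module.finrank ℚ F)) ℚ F) :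
    ∃ δ : ℝ, 0 < δ ∧ ∀ n : Fin (Module.finrank ℚ F) → ℤ, n ≠ 0 →
      δ ≤ ∑ w : InfinitePlace F, w (freq b n) := by
  set B : ℝ := 1 + ∑ j, ∑ w : InfinitePlace F, 2 * w (b j) with hB
  have hB0 : 0 < B := add_pos_of_pos_of_nonneg one_pos
    (Finset.sum_nonneg fun j _ => Finset.sum_nonneg fun w _ => by positivity)
  refine ⟨B⁻¹, inv_pos.mpr hB0, fun n hn => ?_⟩
  obtain ⟨j, hj⟩ := Function.ne_iff.mp hn
  have h1 : (1 : ℝ) ≤ |(n j : ℝ)| := by exact_mod_cast Int.one_le_abs hj
  have h2 : |(n j : ℝ)| ≤ B * ∑ w : InfinitePlace F, w (freq b n) := by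
    refine (abs_le_sum_freq b n j).trans ?_
    rw [Finset.mul_sum]
    refine Finset.sum_le_sum fun w _ => ?_
    rw [← mul_assoc]
    refine mul_le_mul_of_nonneg_right ?_ (apply_nonneg w _)
    have := Finset.single_le_sum (f := fun v : InfinitePlace F => 2 * v (b j))
      (fun v _ => by positivity) (Finset.mem_univ w)
    have := Finset.single_le_sum (f := fun i => ∑ v : InfinitePlace F, 2 * v (b i))
      (fun i _ => Finset.sum_nonneg fun v _ => by positivity) (Finset.mem_univ j)
    linarith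
  rw [inv_eq_one_div, div_le_iff₀ hB0, mul_comm]
  linarith

/-- The sum of the absolute values of the expansion decays exponentially in the heights. -/
theorem exists_sum_coef_le (hφ : IsCuspEigen φ) (c : GLFin F ⧸ U.toSubgroup) {b₀ : ℝ}
    (hb₀ : 0 < b₀) :
    ∃ K δ : ℝ, 0 ≤ K ∧ 0 < δ ∧ ∀ (t : InfinitePlace F → ℝ) (m : ℝ), b₀ ≤ m → (∀ w, m ≤ t w) →
      Summable (fun ξ : F => ‖coef φ c ξ‖ * bessel ξ t) ∧
        ∑' ξ : F, ‖coef φ c ξ‖ * bessel ξ t ≤ K * Real.exp (-(δ * m)) := by
  obtain ⟨b, hb⟩ := exists_stab_basis c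
  obtain ⟨C, hC⟩ := hφ.bounded
  obtain ⟨δ, hδ, hgap⟩ := exists_freq_gap b
  have hC0 : 0 ≤ C := (norm_nonneg _).trans (hC (ptAt 0 (fun _ => 1), c))
  set g : (Fin (Module.finrank ℚ F) → ℤ) → ℝ := fun n =>
    2 ^ Fintype.card (InfinitePlace F) *
      Real.exp (-(Real.pi * b₀ * ∑ w : InfinitePlace F, w (freq b n))) * C
  have hg : Summable g :=
    ((summable_exp_freq b (by positivity : (0 : ℝ) < Real.pi * b₀)).mul_left _).mul_right C
  have hg0 : ∀ n, 0 ≤ g n := fun n => by positivity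
  refine ⟨∑' n, g n, Real.pi * δ, tsum_nonneg hg0, by positivity, fun t m hbm hmt => ?_⟩
  have ht : ∀ w, 0 < t w := fun w => (hb₀.trans_le hbm).trans_le (hmt w)
  set f : F → ℝ := fun ξ => ‖coef φ c ξ‖ * bessel ξ t
  have hsupp : ∀ ξ ∉ Set.range (freq b), f ξ = 0 := fun ξ hξ => by
    have : coef φ c ξ = 0 := by
      by_contra h; exact hξ (coef_support hφ hb h)
    simp [f, this]
  have hterm : ∀ n, f (freq b n) ≤ g n * Real.exp (-(Real.pi * δ * m)) ∧ 0 ≤ f (freq b n) := by
    intro n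
    rcases eq_or_ne n 0 with rfl | hn
    · have : f (freq b 0) = 0 := by
        simp [f, show freq b 0 = 0 by simp [freq], (isExpansion_coef hφ c).1]
      rw [this]
      exact ⟨mul_nonneg (hg0 _) (Real.exp_pos _).le, le_rfl⟩
    have hpos := bessel_pos (freq_ne_zero (b := b) hn) ht
    refine ⟨?_, mul_nonneg (norm_nonneg _) hpos.le⟩
    have h := norm_torusCoeff_exp_le hφ hb hC n ht
    rw [torusCoeff_eq_coef hφ hb n ht, norm_mul, Complex.norm_real,
      Real.norm_of_nonneg hpos.le] at h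
    refine h.trans ?_
    have e : g n * Real.exp (-(Real.pi * δ * m))
        = 2 ^ Fintype.card (InfinitePlace F) * (Real.exp (-(Real.pi * b₀ *
          ∑ w : InfinitePlace F, w (freq b n))) * Real.exp (-(Real.pi * δ * m))) * C := by
      simp only [g]; ring
    rw [e, ← Real.exp_add]
    refine mul_le_mul_of_nonneg_right (mul_le_mul_of_nonneg_left (Real.exp_le_exp.mpr ?_)
      (by positivity)) hC0
    have h1 := sum_freq_mul_ge (b := b) n hmt
    have h2 := hgap n hn
    set S := ∑ w : InfinitePlace F, w (freq b n)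
    have hS0 : 0 ≤ S := hδ.le.trans h2
    have h3 : b₀ * S ≤ m * S := mul_le_mul_of_nonneg_right hbm hS0
    have h4 : δ * m ≤ S * m := mul_le_mul_of_nonneg_right h2 (hb₀.le.trans hbm)
    nlinarith [Real.pi_pos]
  have hsum : Summable fun n => f (freq b n) :=
    Summable.of_nonneg_of_le (fun n => (hterm n).2) (fun n => (hterm n).1) (hg.mul_right _)
  refine ⟨((freq_injective b).summable_iff hsupp).mp hsum, ?_⟩
  rw [← (freq_injective b).tsum_eq (f := f) fun ξ hξ => by_contra fun h => hξ (hsupp ξ h),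
    ← tsum_mul_right]
  exact hsum.tsum_le_tsum (fun n => (hterm n).1) (hg.mul_right _)

/-- Exponential decay along the cusp at a coset. -/
theorem exists_norm_le_exp (hφ : IsCuspEigen φ) (c : GLFin F ⧸ U.toSubgroup) {b₀ : ℝ}
    (hb₀ : 0 < b₀) :
    ∃ K δ : ℝ, 0 ≤ K ∧ 0 < δ ∧ ∀ (z : InfinitePlace F → ℂ) (t : InfinitePlace F → ℝ) (m : ℝ),
      b₀ ≤ m → (∀ w, m ≤ t w) → ‖φ (ptAt z t, c)‖ ≤ K * Real.exp (-(δ * m)) := by
  obtain ⟨K, δ, hK, hδ, h⟩ := exists_sum_coef_le hφ c hb₀
  refine ⟨K, δ, hK, hδ, fun z t m hbm hmt => ?_⟩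
  have ht : ∀ w, 0 < t w := fun w => (hb₀.trans_le hbm).trans_le (hmt w)
  obtain ⟨hs, hle⟩ := h t m hbm hmt
  have hexp := (isExpansion_coef hφ c).2 z t ht
  rw [← hexp.tsum_eq]
  have e : ∀ ξ : F, ‖coef φ c ξ * expChar ξ z * (bessel ξ t : ℂ)‖
      = ‖coef φ c ξ‖ * bessel ξ t := fun ξ => by
    rw [norm_mul, norm_mul, norm_expChar, mul_one, Complex.norm_real]
    rcases eq_or_ne ξ 0 with rfl | hξ
    · simp [(isExpansion_coef hφ c).1]
    · rw [Real.norm_of_nonneg (bessel_pos hξ ht).le]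
  refine (norm_tsum_le_tsum_norm (by simpa only [e] using hs)).trans ?_
  simpa only [e] using hle

end Fermat.Agent.LT.Decay
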