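import Fermat.Agent.LT.Decay.Coef
import Fermat.Agent.LT.Reduction.Volume
import Fermat.Agent.LT.Setup.Measure

/-!
# Rapid decay on Siegel sets and integrability against poly-height functions

A cusp eigenfunction is bounded by every negative power of the height on a Siegel set, so its
product with a function of polynomial growth in the height is integrable there.
-/

set_option autoImplicit false

noncomputable section

open MeasureTheory Set
open NumberField (InfinitePlace)

namespace Fermat.Agent.LT.Decay

open Whittaker Reduction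

variable {F : Type*} [Field F] [NumberField F] [NumberField.IsTotallyComplex F] {U : Level F}
  {φ : Y U → ℂ}

/-- A cusp eigenfunction decreases faster than any power of the height on a Siegel set. -/
theorem exists_norm_le_height (hφ : IsCuspEigen φ) (R : Finset (GLFin F)) (A B : ℝ) {b : ℝ}
    (hb : 0 < b) (α : ℝ) :
    ∃ K : ℝ, 0 ≤ K ∧ ∀ y ∈ siegel U R A B b, ‖φ y‖ ≤ K * height y ^ (-α) := by
  choose K δ hK hδ hle using fun r : GLFin F =>
    exists_norm_le_exp hφ (QuotientGroup.mk r : GLFin F ⧸ U.toSubgroup) hb
  set d := Fintype.card (InfinitePlace F) with hd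
  obtain ⟨k, hk⟩ := exists_nat_ge α
  set B' := max B 1 with hB'
  set bn := b ^ d with hbn
  have hbn0 : 0 < bn := pow_pos hb _
  refine ⟨∑ r ∈ R, K r * ((Nat.factorial (k * d) : ℝ) * (B' / δ r) ^ (k * d)) * bn ^ (α - k),
    Finset.sum_nonneg fun r _ => by have := hδ r; have := hK r; positivity, ?_⟩
  rintro y ⟨hy, r, hr, hyr⟩
  refine le_trans ?_ (mul_le_mul_of_nonneg_right (Finset.single_le_sum
    (fun s _ => by have := hδ s; have := hK s; positivity) hr)
    (Real.rpow_nonneg (height_pos y).le _))
  obtain ⟨w₀, -, hw₀⟩ := Finset.exists_min_image Finset.univ (fun w => H3.tc (y.1 w))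
    Finset.univ_nonempty
  set m := H3.tc (y.1 w₀) with hm
  have hbm : b ≤ m := (hy w₀).1
  have hm0 : 0 < m := hb.trans_le hbm
  have hdec := hle r (fun w => H3.zc (y.1 w)) (fun w => H3.tc (y.1 w)) m hbm
    fun w => hw₀ w (Finset.mem_univ w)
  have hpt : ptAt (fun w => H3.zc (y.1 w)) (fun w => H3.tc (y.1 w)) = y.1 :=
    funext fun w => H3.pt_coord _
  rw [hpt, ← hyr, show (y.1, y.2) = y from rfl] at hdec
  refine hdec.trans ?_
  have hh0 := height_pos y
  have hhup : height y ≤ (B' * m) ^ d := by
    rw [height, hd, ← Finset.card_univ, ← Finset.prod_const]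
    refine Finset.prod_le_prod (fun w _ => (H3.tc_pos _).le) fun w _ => ?_
    exact ((hy w).2.2 w₀).trans (mul_le_mul_of_nonneg_right (le_max_left _ _) hm0.le)
  have hhlo : bn ≤ height y := by
    rw [height, hbn, hd, ← Finset.card_univ, ← Finset.prod_const]
    exact Finset.prod_le_prod (fun w _ => hb.le) fun w _ => (hy w).1
  have hexp : Real.exp (-(δ r * m)) ≤ (Nat.factorial (k * d) : ℝ) / (δ r * m) ^ (k * d) := by
    have hx : 0 < δ r * m := mul_pos (hδ r) hm0
    have h := Real.pow_div_factorial_le_exp (δ r * m) hx.le (k * d)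
    rw [Real.exp_neg, le_div_iff₀ (pow_pos hx _), inv_mul_le_iff₀ (Real.exp_pos _)]
    rwa [div_le_iff₀ (by positivity)] at h
  have hpow : height y ^ α ≤ (B' * m) ^ (k * d) * bn ^ (α - k) := by
    have h1 : height y ^ (α - k) ≤ bn ^ (α - k) :=
      Real.rpow_le_rpow_of_nonpos hbn0 hhlo (by linarith)
    have h2 : height y ^ (k : ℝ) ≤ (B' * m) ^ (k * d) := by
      rw [Real.rpow_natCast, mul_comm k d, pow_mul]
      exact pow_le_pow_left₀ hh0.le hhup k
    calc height y ^ α = height y ^ (k : ℝ) * height y ^ (α - k) := by
          rw [← Real.rpow_add hh0, add_sub_cancel]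
      _ ≤ _ := mul_le_mul h2 h1 (Real.rpow_nonneg hh0.le _) (by positivity)
  rw [Real.rpow_neg hh0.le, ← div_eq_mul_inv, le_div_iff₀ (Real.rpow_pos_of_pos hh0 α)]
  calc K r * Real.exp (-(δ r * m)) * height y ^ α
      ≤ K r * ((Nat.factorial (k * d) : ℝ) / (δ r * m) ^ (k * d)) *
          ((B' * m) ^ (k * d) * bn ^ (α - k)) := by
        have := hK r
        have := hδ r
        gcongr
    _ = _ := by
        have := (hδ r).ne'
        simp only [mul_pow, div_pow]
        field_simp

omit [NumberField.IsTotallyComplex F] in
/-- A function continuous on each coset slice is measurable. -/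
theorem measurable_of_continuous_slices {E : Type*} [TopologicalSpace E] [MeasurableSpace E]
    [BorelSpace E] {f : Y U → E} (hf : ∀ c, Continuous fun P => f (P, c)) : Measurable f := by
  have := Reduction.countable_cosets U
  exact measurable_from_prod_countable_left fun c => (hf c).measurable

omit [NumberField.IsTotallyComplex F] in
/-- Integrability of a function supported in a Siegel set and dominated by a power below `2`. -/
theorem integrable_of_siegel_le {E : Type*} [NormedAddCommGroup E] {g : Y U → E}
    (hg : AEStronglyMeasurable g (yVol U)) {R : Finset (GLFin F)} {A B b α K : ℝ} (hα : α < 2)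
    (hb : 0 < b) (h0 : ∀ y ∉ siegel U R A B b, g y = 0)
    (hle : ∀ y ∈ siegel U R A B b, ‖g y‖ ≤ K * height y ^ α) :
    Integrable g (yVol U) := by
  refine ((integrable_height_rpow (U := U) hα R A B hb).const_mul K).mono' hg
    (Filter.Eventually.of_forall fun y => ?_)
  by_cases hy : y ∈ siegel U R A B b
  · rw [Set.indicator_of_mem hy]; exact hle y hy
  · rw [Set.indicator_of_notMem hy, h0 y hy, norm_zero, mul_zero]

/-- A weight supported in a Siegel set times a cusp eigenfunction times any function of polynomial
growth in the height is integrable. -/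
theorem integrable_weight_mul (hφ : IsCuspEigen φ) {P : PartitionOfUnity U}
    (hP : Measurable P.weight) {R : Finset (GLFin F)} {A B b : ℝ} (hb : 0 < b)
    (hle : ∀ y, P.weight y ≤ (siegel U R A B b).indicator (fun _ => 1) y) {f : Y U → ℂ}
    (hf : AEStronglyMeasurable f (yVol U)) {α K : ℝ}
    (hfle : ∀ y ∈ siegel U R A B b, ‖f y‖ ≤ K * height y ^ α) :
    Integrable (fun y => P.weight y • (φ y * f y)) (yVol U) := by
  obtain ⟨C, hC0, hC⟩ := exists_norm_le_height hφ R A B hb α
  refine integrable_of_siegel_le (R := R) (A := A) (B := B) (α := 0) (K := C * K)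
    (hP.aestronglyMeasurable.smul
      ((measurable_of_continuous_slices hφ.continuous).aestronglyMeasurable.mul hf))
    two_pos hb (fun y hy => ?_) fun y hy => ?_
  · have h := hle y
    rw [Set.indicator_of_notMem hy] at h
    simp [le_antisymm h (P.nonneg y)]
  · have h1 := hle y
    rw [Set.indicator_of_mem hy] at h1
    rw [norm_smul, Real.norm_of_nonneg (P.nonneg y), norm_mul, Real.rpow_zero, mul_one]
    have hh := height_pos y
    calc P.weight y * (‖φ y‖ * ‖f y‖) ≤ 1 * ((C * height y ^ (-α)) * (K * height y ^ α)) :=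
          mul_le_mul h1 (mul_le_mul (hC y hy) (hfle y hy) (norm_nonneg _)
            (mul_nonneg hC0 (Real.rpow_nonneg hh.le _))) (by positivity) zero_le_one
      _ = C * K := by
          rw [one_mul, mul_mul_mul_comm, ← Real.rpow_add hh, neg_add_cancel, Real.rpow_zero,
            mul_one]

end Fermat.Agent.LT.Decay
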